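import Fermat.Agent.Frob.Exists

/-!
# Frobenius elements for `AlgebraicClosure ℚ`
-/

set_option autoImplicit false

namespace Fermat.Agent.Frob

theorem isAlgebraic_Qbar : Algebra.IsAlgebraic ℚ (AlgebraicClosure ℚ) :=
  AlgebraicClosure.isAlgebraic ℚ

theorem isAlgClosure_Qbar : IsAlgClosure ℚ (AlgebraicClosure ℚ) :=
  ⟨inferInstance, isAlgebraic_Qbar⟩

theorem isGalois_Qbar : IsGalois ℚ (AlgebraicClosure ℚ) :=
  have := isAlgClosure_Qbar
  IsAlgClosure.isGalois ℚ (AlgebraicClosure ℚ)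

/-- Every place of `Qbar` over `ℓ` has a Frobenius element. -/
theorem exists_isFrobeniusAt_Qbar (A : ValuationSubring (AlgebraicClosure ℚ)) {ℓ : ℕ}
    (hℓ : ℓ.Prime) (hA : A.LiesOverPrime ℓ) :
    ∃ σ : AlgebraicClosure ℚ ≃ₐ[ℚ] AlgebraicClosure ℚ, A.IsFrobeniusAt σ ℓ :=
  have := isGalois_Qbar
  exists_isFrobeniusAt A hℓ hA

/-- There is a place of `Qbar` over every prime, with a Frobenius element. -/
theorem exists_place_frobenius {ℓ : ℕ} (hℓ : ℓ.Prime) :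
    ∃ A : ValuationSubring (AlgebraicClosure ℚ), A.LiesOverPrime ℓ ∧
      ∃ σ : AlgebraicClosure ℚ ≃ₐ[ℚ] AlgebraicClosure ℚ, A.IsFrobeniusAt σ ℓ := by
  obtain ⟨A, hA⟩ := exists_liesOverPrime (AlgebraicClosure ℚ) hℓ
  exact ⟨A, hA, exists_isFrobeniusAt_Qbar A hℓ hA⟩

open scoped Pointwise in
/-- Any two places of `Qbar` over the same prime are conjugate. -/
theorem exists_eq_smul_Qbar (A A' : ValuationSubring (AlgebraicClosure ℚ)) {ℓ : ℕ}
    (hℓ : ℓ.Prime) (hA : A.LiesOverPrime ℓ) (hA' : A'.LiesOverPrime ℓ) :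
    ∃ σ : AlgebraicClosure ℚ ≃ₐ[ℚ] AlgebraicClosure ℚ, A' = σ • A :=
  have := isGalois_Qbar
  exists_eq_smul A A' hℓ hA hA'

end Fermat.Agent.Frob
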