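import Mathlib
import Fermat.Prelude.Def_FLTPrelim_Ramification

/-!
# Valuation subrings over a prime are localisations of the ring of integral elements
-/

set_option autoImplicit false
set_option linter.style.haveILetI false

namespace Fermat.Agent.Frob

open Polynomial

variable {L : Type*} [Field L]

theorem mem_nonunits_iff_valuation (A : ValuationSubring L) (x : L) :
    x ∈ A.nonunits ↔ A.valuation x < 1 := Iff.rfl

/-- An element lying in all valuation subrings is integral over `ℤ`. -/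
theorem isIntegral_of_forall_mem {x : L} (h : ∀ V : ValuationSubring L, x ∈ V) :
    IsIntegral ℤ x := by
  have h1 : x ∈ (integralClosure (Subring.closure (∅ : Set L)) L).toSubring := by
    rw [← iInf_valuationSubring_superset]
    rw [Subring.mem_iInf]
    intro V
    exact h V.1
  have h2 : IsIntegral (Subring.closure (∅ : Set L)) x := h1
  rw [Subring.closure_empty] at h2
  -- `⊥` is the image of ℤ
  haveI : Algebra.IsIntegral ℤ (⊥ : Subring L) := by
    constructor
    rintro ⟨y, hy⟩
    obtain ⟨n, rfl⟩ := Subring.mem_bot.mp hy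
    have : (⟨(n : L), hy⟩ : (⊥ : Subring L)) = algebraMap ℤ (⊥ : Subring L) n := by
      ext; simp
    rw [this]
    exact isIntegral_algebraMap
  exact isIntegral_trans x h2

theorem int_mem (A : ValuationSubring L) (n : ℤ) : (n : L) ∈ A :=
  _root_.intCast_mem A n

theorem valuation_intCast_le_one (A : ValuationSubring L) (n : ℤ) : A.valuation (n : L) ≤ 1 :=
  (A.valuation_le_one_iff _).mpr (int_mem A n)

/-- integral elements lie in every valuation subring -/
theorem mem_of_isIntegral (A : ValuationSubring L) {x : L} (hx : IsIntegral ℤ x) : x ∈ A := by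
  have h1 : IsIntegral A x := hx.tower_top
  obtain ⟨y, hy⟩ := (IsIntegrallyClosed.isIntegral_iff (R := A) (K := L)).mp h1
  rw [← hy]
  exact y.2

theorem valuation_intCast_eq_one (A : ValuationSubring L) {ℓ : ℕ} (hℓ : ℓ.Prime)
    (hA : A.LiesOverPrime ℓ) {n : ℤ} (hn : ¬ (ℓ : ℤ) ∣ n) : A.valuation (n : L) = 1 := by
  apply le_antisymm (valuation_intCast_le_one A n)
  by_contra hlt
  rw [not_le] at hlt
  have hcop : IsCoprime (ℓ : ℤ) n :=
    (Prime.coprime_iff_not_dvd (Nat.prime_iff_prime_int.mp hℓ)).mpr hn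
  obtain ⟨a, b, hab⟩ := hcop
  have h1 : A.valuation ((a : L) * (ℓ : L) + (b : L) * (n : L)) < 1 := by
    apply A.valuation.map_add_lt
    · rw [map_mul]
      exact mul_lt_one_of_nonneg_of_lt_one_right (valuation_intCast_le_one A a) zero_le hA
    · rw [map_mul]
      exact mul_lt_one_of_nonneg_of_lt_one_right (valuation_intCast_le_one A b) zero_le hlt
  have h2 : ((a : L) * (ℓ : L) + (b : L) * (n : L)) = 1 := by exact_mod_cast congrArg (Int.cast : ℤ → L) hab
  rw [h2, map_one] at h1
  exact lt_irrefl _ h1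

/-- Every element of a valuation subring `A` over `ℓ` which is algebraic over `ℤ` is a fraction
`b/s` with `b`, `s` integral over `ℤ` and `s` a unit of `A`. -/
theorem exists_isIntegral_mul_eq [CharZero L] (A : ValuationSubring L) {ℓ : ℕ} (hℓ : ℓ.Prime)
    (hA : A.LiesOverPrime ℓ) {x : L} (hx : x ∈ A) (halg : IsAlgebraic ℤ x) :
    ∃ b s : L, IsIntegral ℤ b ∧ IsIntegral ℤ s ∧ A.valuation s = 1 ∧ x * s = b := by
  classical
  by_cases hx0 : x = 0
  · exact ⟨0, 1, isIntegral_zero, isIntegral_one, map_one _, by rw [hx0, zero_mul]⟩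
  obtain ⟨p, hp0, hp⟩ := halg
  obtain ⟨f, hf⟩ : ∃ f : ℤ[X], f = p.primPart := ⟨_, rfl⟩
  have hfprim : f.IsPrimitive := hf ▸ p.isPrimitive_primPart
  have hfx : aeval x f = 0 := by rw [hf]; exact aeval_primPart_eq_zero hp0 hp
  -- the largest index with coefficient prime to ℓ
  have hex : ∃ i, ¬ (ℓ : ℤ) ∣ f.coeff i := by
    by_contra hcon
    push Not at hcon
    have : C (ℓ : ℤ) ∣ f := (C_dvd_iff_dvd_coeff _ _).mpr hcon
    have := hfprim _ this
    exact (Nat.prime_iff_prime_int.mp hℓ).not_isUnit this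
  obtain ⟨j, hj, hjmax⟩ : ∃ j, ¬ (ℓ : ℤ) ∣ f.coeff j ∧ ∀ i, j < i → (ℓ : ℤ) ∣ f.coeff i := by
    have hfin : (f.support.filter (fun i => ¬ (ℓ : ℤ) ∣ f.coeff i)).Nonempty := by
      obtain ⟨i, hi⟩ := hex
      refine ⟨i, Finset.mem_filter.mpr ⟨?_, hi⟩⟩
      rw [mem_support_iff]
      intro h0
      exact hi (h0 ▸ dvd_zero _)
    refine ⟨_, (Finset.mem_filter.mp (Finset.max'_mem _ hfin)).2, fun i hi => ?_⟩
    by_contra hcon
    have : i ∈ f.support.filter (fun i => ¬ (ℓ : ℤ) ∣ f.coeff i) := by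
      refine Finset.mem_filter.mpr ⟨?_, hcon⟩
      rw [mem_support_iff]
      intro h0
      exact hcon (h0 ▸ dvd_zero _)
    exact absurd (Finset.le_max' _ _ this) (not_le.mpr hi)
  have hjn : j ≤ f.natDegree := by
    by_contra h
    rw [not_le] at h
    exact hj (by rw [coeff_eq_zero_of_natDegree_lt h]; exact dvd_zero _)
  set n := f.natDegree with hn
  obtain ⟨y, hy⟩ : ∃ y : L, y = ∑ i ∈ Finset.Ico j (n + 1), (f.coeff i : L) * x ^ (i - j) := ⟨_, rfl⟩
  have hsum : ∑ i ∈ Finset.range (n + 1), (f.coeff i : L) * x ^ i = 0 := by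
    have := hfx
    rw [aeval_eq_sum_range] at this
    simpa [zsmul_eq_mul] using this
  have hsplit : ∑ i ∈ Finset.range j, (f.coeff i : L) * x ^ i + x ^ j * y = 0 := by
    rw [← hsum, hy, Finset.mul_sum, Finset.range_eq_Ico, Finset.range_eq_Ico,
      ← Finset.sum_Ico_consecutive _ (Nat.zero_le j) (by omega : j ≤ n + 1)]
    congr 1
    refine Finset.sum_congr rfl fun i hi => ?_
    rw [Finset.mem_Ico] at hi
    calc x ^ j * ((f.coeff i : L) * x ^ (i - j)) = (f.coeff i : L) * (x ^ j * x ^ (i - j)) := by ring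
      _ = (f.coeff i : L) * x ^ i := by rw [← pow_add, Nat.add_sub_cancel' hi.1]
  have hy2 : y = - ∑ i ∈ Finset.range j, (f.coeff i : L) * (x⁻¹) ^ (j - i) := by
    have hxj : x ^ j ≠ 0 := pow_ne_zero _ hx0
    apply mul_left_cancel₀ hxj
    rw [mul_neg, Finset.mul_sum]
    have : ∑ i ∈ Finset.range j, x ^ j * ((f.coeff i : L) * (x⁻¹) ^ (j - i)) =
        ∑ i ∈ Finset.range j, (f.coeff i : L) * x ^ i := by
      refine Finset.sum_congr rfl fun i hi => ?_
      rw [Finset.mem_range] at hi
      have h1 : x ^ j = x ^ i * x ^ (j - i) := by rw [← pow_add, Nat.add_sub_cancel' hi.le]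
      rw [h1, inv_pow]
      field_simp
    rw [this]
    linear_combination hsplit
  have hyx2 : x * y = - ∑ i ∈ Finset.range j, (f.coeff i : L) * (x⁻¹) ^ (j - i - 1) := by
    rw [hy2, mul_neg, Finset.mul_sum]
    congr 1
    refine Finset.sum_congr rfl fun i hi => ?_
    rw [Finset.mem_range] at hi
    have h1 : (x⁻¹) ^ (j - i) = x⁻¹ * (x⁻¹) ^ (j - i - 1) := by
      rw [← pow_succ']; congr 1; omega
    rw [h1]
    field_simp
  have hcoe : ∀ (V : ValuationSubring L) (m : ℤ), (m : L) ∈ V := fun V m => int_mem V m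
  have hyint : IsIntegral ℤ y := by
    apply isIntegral_of_forall_mem
    intro V
    rcases V.mem_or_inv_mem x with hV | hV
    · rw [hy]; exact sum_mem fun i _ => mul_mem (hcoe V _) (pow_mem hV _)
    · rw [hy2]
      exact neg_mem (sum_mem fun i _ => mul_mem (hcoe V _) (pow_mem hV _))
  have hyxint : IsIntegral ℤ (x * y) := by
    apply isIntegral_of_forall_mem
    intro V
    rcases V.mem_or_inv_mem x with hV | hV
    · rw [hy]; exact mul_mem hV (sum_mem fun i _ => mul_mem (hcoe V _) (pow_mem hV _))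
    · rw [hyx2]
      exact neg_mem (sum_mem fun i _ => mul_mem (hcoe V _) (pow_mem hV _))
  refine ⟨x * y, y, hyxint, hyint, ?_, rfl⟩
  -- valuation of y
  have hysplit : y = (f.coeff j : L) +
      ∑ i ∈ Finset.Ico (j + 1) (n + 1), (f.coeff i : L) * x ^ (i - j) := by
    rw [hy, Finset.sum_eq_sum_Ico_succ_bot (by omega : j < n + 1)]
    simp
  have hlt : A.valuation (∑ i ∈ Finset.Ico (j + 1) (n + 1), (f.coeff i : L) * x ^ (i - j)) < 1 := by
    apply A.valuation.map_sum_lt one_ne_zero
    intro i hi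
    rw [Finset.mem_Ico] at hi
    obtain ⟨c, hc⟩ := hjmax i (by omega)
    rw [hc, Int.cast_mul, mul_assoc, map_mul]
    refine mul_lt_one_of_lt_of_le ?_ ?_
    · exact_mod_cast hA
    · rw [A.valuation_le_one_iff]
      exact mul_mem (hcoe A _) (pow_mem hx _)
  rw [hysplit, Valuation.map_add_eq_of_lt_left]
  · exact valuation_intCast_eq_one A hℓ hA hj
  · rw [valuation_intCast_eq_one A hℓ hA hj]; exact hlt

end Fermat.Agent.Frob
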