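import Fermat.Agent.Frob.Localization
import Fermat.Prelude.Def_EllipticCurve_FrobeniusTrace

/-!
# Existence of Frobenius elements in the absolute Galois group
-/

set_option autoImplicit false
set_option linter.style.haveILetI false
set_option maxHeartbeats 4000000
set_option synthInstance.maxHeartbeats 400000

namespace Fermat.Agent.Frob

open scoped Pointwise

variable {L : Type} [Field L]

/-- the inclusion of the ring of integral elements in a valuation subring -/
def intToVal (A : ValuationSubring L) : integralClosure ℤ L →+* A where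
  toFun b := ⟨b, mem_of_isIntegral A b.2⟩
  map_one' := rfl
  map_mul' _ _ := rfl
  map_zero' := rfl
  map_add' _ _ := rfl

/-- the center of a valuation subring on the ring of integral elements -/
def center (A : ValuationSubring L) : Ideal (integralClosure ℤ L) :=
  (IsLocalRing.maximalIdeal A).comap (intToVal A)

instance (A : ValuationSubring L) : (center A).IsPrime := by
  unfold center; infer_instance

theorem mem_center_iff (A : ValuationSubring L) (b : integralClosure ℤ L) :
    b ∈ center A ↔ A.valuation (b : L) < 1 := by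
  rw [center, Ideal.mem_comap]
  exact (A.valuation_lt_one_iff (intToVal A b))

theorem notMem_center_iff (A : ValuationSubring L) (b : integralClosure ℤ L) :
    b ∉ center A ↔ A.valuation (b : L) = 1 := by
  rw [mem_center_iff, not_lt]
  constructor
  · intro h
    exact le_antisymm ((A.valuation_le_one_iff _).mpr (mem_of_isIntegral A b.2)) h
  · intro h; exact h.ge

theorem center_under (A : ValuationSubring L) {ℓ : ℕ} (hℓ : ℓ.Prime) (hA : A.LiesOverPrime ℓ) :
    (center A).under ℤ = Ideal.span {(ℓ : ℤ)} := by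
  ext n
  rw [Ideal.mem_comap, Ideal.mem_span_singleton, mem_center_iff]
  have hcoe : ((algebraMap ℤ (integralClosure ℤ L) n : integralClosure ℤ L) : L) = (n : L) := by
    simp
  rw [hcoe]
  constructor
  · intro h
    by_contra hn
    rw [valuation_intCast_eq_one A hℓ hA hn] at h
    exact lt_irrefl _ h
  · rintro ⟨c, rfl⟩
    rw [Int.cast_mul, map_mul]
    refine mul_lt_one_of_lt_of_le ?_ (valuation_intCast_le_one A c)
    exact_mod_cast hA

section Galois

variable [Algebra ℚ L]

instance isInvariant_integralClosure [IsGalois ℚ L] :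
    Algebra.IsInvariant ℤ (integralClosure ℤ L) (L ≃ₐ[ℚ] L) := by
  haveI : CharZero L := algebraRat.charZero L
  refine ⟨fun b hb => ?_⟩
  have h1 : (b : L) ∈ (⊥ : IntermediateField ℚ L) := by
    rw [InfiniteGalois.mem_bot_iff_fixed]
    intro f
    exact congrArg Subtype.val (hb f)
  rw [IntermediateField.mem_bot] at h1
  obtain ⟨q, hq⟩ := h1
  have h2 : IsIntegral ℤ q := by
    have : IsIntegral ℤ (algebraMap ℚ L q) := by rw [hq]; exact b.2
    exact (isIntegral_algebraMap_iff (algebraMap ℚ L).injective).mp this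
  obtain ⟨n, hn⟩ := (IsIntegrallyClosed.isIntegral_iff (R := ℤ) (K := ℚ)).mp h2
  refine ⟨n, ?_⟩
  apply Subtype.ext
  rw [← hq, ← hn]
  simp

theorem smul_mem_of_center_eq [Algebra.IsIntegral ℚ L] (A A' : ValuationSubring L)
    {ℓ : ℕ} (hℓ : ℓ.Prime) (hA : A.LiesOverPrime ℓ) {g : L ≃ₐ[ℚ] L}
    (hg : center A' = g • center A) {x : L} (hx : x ∈ A) : g x ∈ A' := by
  haveI : CharZero L := algebraRat.charZero L
  have halg : IsAlgebraic ℤ x := by
    have : IsAlgebraic ℚ x := (Algebra.IsIntegral.isIntegral (R := ℚ) x).isAlgebraic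
    exact (IsFractionRing.isAlgebraic_iff ℤ ℚ L).mpr this
  obtain ⟨b, s, hb, hs, hv, hbs⟩ := exists_isIntegral_mul_eq A hℓ hA hx halg
  have hgs : A'.valuation (g s) = 1 := by
    have h1 : (⟨s, hs⟩ : integralClosure ℤ L) ∉ center A := (notMem_center_iff A _).mpr hv
    have h2 : g • (⟨s, hs⟩ : integralClosure ℤ L) ∉ center A' := by
      intro h
      apply h1
      rw [← Ideal.smul_mem_pointwise_smul_iff (a := g), ← hg]
      exact h
    exact (notMem_center_iff A' _).mp h2
  have hgb : g b ∈ A' := mem_of_isIntegral A' (hb.map g.toAlgHom.toIntAlgHom)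
  have h3 : g x * g s = g b := by rw [← map_mul, hbs]
  rw [← A'.valuation_le_one_iff]
  have h4 : A'.valuation (g x) * A'.valuation (g s) ≤ 1 := by
    rw [← map_mul, h3, A'.valuation_le_one_iff]; exact hgb
  rwa [hgs, mul_one] at h4

theorem eq_smul_of_center_eq [Algebra.IsIntegral ℚ L] (A A' : ValuationSubring L)
    {ℓ : ℕ} (hℓ : ℓ.Prime) (hA : A.LiesOverPrime ℓ) (hA' : A'.LiesOverPrime ℓ) {g : L ≃ₐ[ℚ] L}
    (hg : center A' = g • center A) : A' = g • A := by
  have hg' : center A = g⁻¹ • center A' := by rw [hg, inv_smul_smul]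
  apply SetLike.ext
  intro x
  rw [ValuationSubring.mem_pointwise_smul_iff_inv_smul_mem]
  constructor
  · intro h
    exact smul_mem_of_center_eq A' A hℓ hA' hg' h
  · intro h
    have := smul_mem_of_center_eq A A' hℓ hA hg h
    rwa [← AlgEquiv.smul_def, smul_inv_smul] at this

theorem mem_decomposition_of_mem_stabilizer_center [Algebra.IsIntegral ℚ L]
    (A : ValuationSubring L) {ℓ : ℕ} (hℓ : ℓ.Prime) (hA : A.LiesOverPrime ℓ) {g : L ≃ₐ[ℚ] L}
    (hg : g ∈ MulAction.stabilizer (L ≃ₐ[ℚ] L) (center A)) : g ∈ A.decompositionSubgroup ℚ :=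
  (eq_smul_of_center_eq A A hℓ hA hA (MulAction.mem_stabilizer_iff.mp hg).symm).symm

/-- Discrete topology on the ring of integral elements: the Galois group acts continuously. -/
theorem continuousSMul_integralClosure [Algebra.IsIntegral ℚ L]
    [TopologicalSpace (integralClosure ℤ L)] [DiscreteTopology (integralClosure ℤ L)] :
    ContinuousSMul (L ≃ₐ[ℚ] L) (integralClosure ℤ L) := by
  rw [continuousSMul_iff_stabilizer_isOpen]
  intro b
  have h := stabilizer_isOpen_of_isIntegral (K := ℚ) (L := L) (b : L)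
  convert h using 2
  ext g
  rw [MulAction.mem_stabilizer_iff, MulAction.mem_stabilizer_iff]
  constructor
  · intro h; exact congrArg Subtype.val h
  · intro h; exact Subtype.ext h

/-- **Existence of Frobenius elements**: for every valuation subring `A` of `L` over the prime `ℓ`
there is an element of the Galois group of `L/ℚ` which is a Frobenius at `A`. -/
theorem exists_isFrobeniusAt [IsGalois ℚ L] (A : ValuationSubring L) {ℓ : ℕ} (hℓ : ℓ.Prime)
    (hA : A.LiesOverPrime ℓ) : ∃ σ : L ≃ₐ[ℚ] L, A.IsFrobeniusAt σ ℓ := by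
  classical
  haveI : Fact ℓ.Prime := ⟨hℓ⟩
  haveI : CharZero L := algebraRat.charZero L
  letI : TopologicalSpace (integralClosure ℤ L) := ⊥
  haveI : DiscreteTopology (integralClosure ℤ L) := ⟨rfl⟩
  haveI : ContinuousSMul (L ≃ₐ[ℚ] L) (integralClosure ℤ L) := continuousSMul_integralClosure
  -- the two ideals
  have hPmax : (Ideal.span {(ℓ : ℤ)}).IsMaximal :=
    PrincipalIdealRing.isMaximal_of_irreducible (Nat.prime_iff_prime_int.mp hℓ).irreducible
  haveI : (center A).LiesOver (Ideal.span {(ℓ : ℤ)}) := ⟨(center_under A hℓ hA).symm⟩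
  haveI : Algebra.IsIntegral ℤ (integralClosure ℤ L) := inferInstance
  haveI hQmax : (center A).IsMaximal := by
    apply Ideal.isMaximal_of_isIntegral_of_isMaximal_comap (R := ℤ) (center A)
    have := center_under A hℓ hA
    rw [Ideal.under] at this
    rw [this]; exact hPmax
  letI : Field (integralClosure ℤ L ⧸ center A) := Ideal.Quotient.field _
  have hchar : CharP (integralClosure ℤ L ⧸ center A) ℓ := by
    rw [CharP.charP_iff_prime_eq_zero hℓ]
    have : ((ℓ : ℕ) : integralClosure ℤ L ⧸ center A) =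
        Ideal.Quotient.mk (center A) ((ℓ : ℕ) : integralClosure ℤ L) := by
      rw [map_natCast]
    rw [this, Ideal.Quotient.eq_zero_iff_mem, mem_center_iff]
    exact_mod_cast hA
  haveI : ExpChar (integralClosure ℤ L ⧸ center A) ℓ := ExpChar.prime hℓ
  haveI : PerfectRing (integralClosure ℤ L ⧸ center A) ℓ := by
    letI : Field (ℤ ⧸ Ideal.span {(ℓ : ℤ)}) := Ideal.Quotient.field _
    haveI : Finite (ℤ ⧸ Ideal.span {(ℓ : ℤ)}) :=
      Ideal.finiteQuotientOfFreeOfNeBot _ (by
        rw [Ne, Ideal.span_singleton_eq_bot]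
        exact_mod_cast hℓ.ne_zero)
    haveI : Algebra.IsIntegral (ℤ ⧸ Ideal.span {(ℓ : ℤ)}) (integralClosure ℤ L ⧸ center A) :=
      inferInstance
    haveI : Algebra.IsAlgebraic (ℤ ⧸ Ideal.span {(ℓ : ℤ)}) (integralClosure ℤ L ⧸ center A) :=
      Algebra.IsIntegral.isAlgebraic
    haveI : PerfectField (integralClosure ℤ L ⧸ center A) :=
      Algebra.IsAlgebraic.perfectField (ℤ ⧸ Ideal.span {(ℓ : ℤ)})
    exact PerfectField.toPerfectRing ℓ
  -- the Frobenius automorphism of the residue field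
  let φ : (integralClosure ℤ L ⧸ center A) ≃ₐ[ℤ ⧸ Ideal.span {(ℓ : ℤ)}]
      (integralClosure ℤ L ⧸ center A) :=
    AlgEquiv.ofRingEquiv (f := frobeniusEquiv (integralClosure ℤ L ⧸ center A) ℓ) (by
      intro a
      obtain ⟨n, rfl⟩ := Ideal.Quotient.mk_surjective a
      rw [frobeniusEquiv_apply]
      have : algebraMap (ℤ ⧸ Ideal.span {(ℓ : ℤ)}) (integralClosure ℤ L ⧸ center A)
          (Ideal.Quotient.mk _ n) = (n : integralClosure ℤ L ⧸ center A) := by
        rw [← map_intCast (algebraMap (ℤ ⧸ Ideal.span {(ℓ : ℤ)})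
          (integralClosure ℤ L ⧸ center A)) n, eq_intCast]
      rw [this, map_intCast])
  obtain ⟨g, hg⟩ := Ideal.Quotient.stabilizerHom_surjective_of_profinite
    (G := L ≃ₐ[ℚ] L) (Ideal.span {(ℓ : ℤ)}) (center A) φ
  have hgφ : ∀ b : integralClosure ℤ L,
      Ideal.Quotient.mk (center A) ((g : L ≃ₐ[ℚ] L) • b) = (Ideal.Quotient.mk (center A) b) ^ ℓ := by
    intro b
    have h1 := congrArg (fun f => f (Ideal.Quotient.mk (center A) b)) hg
    exact h1
  have hgb : ∀ b : L, IsIntegral ℤ b → A.valuation ((g : L ≃ₐ[ℚ] L) b - b ^ ℓ) < 1 := by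
    intro b hb
    have h1 := hgφ ⟨b, hb⟩
    rw [← map_pow, Ideal.Quotient.eq, mem_center_iff] at h1
    exact h1
  have hdec := mem_decomposition_of_mem_stabilizer_center A hℓ hA g.2
  refine ⟨g, hdec, fun x => ?_⟩
  obtain ⟨x, rfl⟩ := IsLocalRing.residue_surjective x
  have halg : IsAlgebraic ℤ (x : L) := by
    have : IsAlgebraic ℚ (x : L) := (Algebra.IsIntegral.isIntegral (R := ℚ) (x : L)).isAlgebraic
    exact (IsFractionRing.isAlgebraic_iff ℤ ℚ L).mpr this
  obtain ⟨b, s, hb, hs, hv, hbs⟩ := exists_isIntegral_mul_eq A hℓ hA x.2 halg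
  rw [← map_pow]
  show IsLocalRing.residue A ((⟨(g : L ≃ₐ[ℚ] L), hdec⟩ : A.decompositionSubgroup ℚ) • x) = _
  rw [← sub_eq_zero, ← map_sub, IsLocalRing.residue_eq_zero_iff]
  refine (A.valuation_lt_one_iff _).mpr ?_
  show A.valuation ((g : L ≃ₐ[ℚ] L) (x : L) - (x : L) ^ ℓ) < 1
  -- multiply by g s
  have hgs : A.valuation ((g : L ≃ₐ[ℚ] L) s) = 1 := by
    have h1 := hgb s hs
    have h2 : A.valuation (s ^ ℓ) = 1 := by rw [map_pow, hv, one_pow]
    have h3 : (g : L ≃ₐ[ℚ] L) s = s ^ ℓ + ((g : L ≃ₐ[ℚ] L) s - s ^ ℓ) := by ring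
    rw [h3, Valuation.map_add_eq_of_lt_left]
    · exact h2
    · rw [h2]; exact h1
  have hkey : ((g : L ≃ₐ[ℚ] L) (x : L) - (x : L) ^ ℓ) * (g : L ≃ₐ[ℚ] L) s =
      ((g : L ≃ₐ[ℚ] L) b - b ^ ℓ) - (x : L) ^ ℓ * ((g : L ≃ₐ[ℚ] L) s - s ^ ℓ) := by
    rw [← hbs, map_mul]; ring
  have h5 : A.valuation (((g : L ≃ₐ[ℚ] L) (x : L) - (x : L) ^ ℓ) * (g : L ≃ₐ[ℚ] L) s) < 1 := by
    rw [hkey]
    refine lt_of_le_of_lt (A.valuation.map_sub _ _) (max_lt (hgb b hb) ?_)
    rw [map_mul]
    refine mul_lt_one_of_nonneg_of_lt_one_right ?_ zero_le (hgb s hs)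
    rw [A.valuation_le_one_iff]
    exact pow_mem x.2 _
  rwa [map_mul, hgs, mul_one] at h5

/-- Any two valuation subrings over the same prime are conjugate. -/
theorem exists_eq_smul [IsGalois ℚ L] (A A' : ValuationSubring L) {ℓ : ℕ} (hℓ : ℓ.Prime)
    (hA : A.LiesOverPrime ℓ) (hA' : A'.LiesOverPrime ℓ) : ∃ σ : L ≃ₐ[ℚ] L, A' = σ • A := by
  letI : TopologicalSpace (integralClosure ℤ L) := ⊥
  haveI : DiscreteTopology (integralClosure ℤ L) := ⟨rfl⟩
  haveI : ContinuousSMul (L ≃ₐ[ℚ] L) (integralClosure ℤ L) := continuousSMul_integralClosure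
  obtain ⟨g, hg⟩ := Algebra.IsInvariant.exists_smul_of_under_eq_of_profinite (A := ℤ)
    (G := L ≃ₐ[ℚ] L) (center A) (center A') (by
      rw [center_under A hℓ hA, center_under A' hℓ hA'])
  exact ⟨g, eq_smul_of_center_eq A A' hℓ hA hA' hg⟩

end Galois

/-- There is a valuation subring over every prime. -/
theorem exists_liesOverPrime (L : Type) [Field L] [CharZero L] {ℓ : ℕ} (hℓ : ℓ.Prime) :
    ∃ A : ValuationSubring L, A.LiesOverPrime ℓ := by
  have hne : Ideal.span {((ℓ : ℕ) : (⊥ : Subring L))} ≠ ⊤ := by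
    rw [Ne, Ideal.span_singleton_eq_top]
    intro hu
    obtain ⟨v, hv⟩ := hu.exists_right_inv
    obtain ⟨n, hn⟩ := Subring.mem_bot.mp v.2
    have h1 := congrArg (Subtype.val) hv
    have h2 : ((ℓ : ℤ) : L) * (n : L) = 1 := by
      rw [hn]
      simpa using h1
    have h3 : (ℓ : ℤ) * n = 1 := by exact_mod_cast h2
    have h4 : (ℓ : ℤ) ∣ 1 := ⟨n, h3.symm⟩
    exact (Nat.prime_iff_prime_int.mp hℓ).not_isUnit (isUnit_of_dvd_one h4)
  obtain ⟨A, hA⟩ := Ideal.image_subset_nonunits_valuationSubring _ hne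
  refine ⟨A, ?_⟩
  apply hA.2
  exact ⟨_, Ideal.mem_span_singleton_self _, by simp⟩

end Fermat.Agent.Frob
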